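import Fermat.Agent.H84.ORD.NodalSpecA
import Fermat.Agent.H91.ORD.NodeAbs
import Fermat.Agent.H70.SS.RatPlaceModular

/-!
# P-ORD, block B1-NODE (helper76) : the node fields of `NodalRvHyp p (nmG htot)`

`nmNode : NmHartogsStatement → NmCrossStatement → NmTotIdealStatement → NmDvrOoStatement →
  NmDvrZeroStatement → NmSoftStatement → NmNodeStatement`

(the fields `node_le`, `node_lt`, `glue` of the nodal data `nmG` of `X₀(M p)`), via the abstract
reduction `Fermat.Agent.H91.ORD.node_slopes` / `node_glue` of helper91.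

Contents.
* valuation arithmetic in the maximal ideal of a valuation subring (`nn_*_mem_nonunits`);
* `nn_chart_le` : the chart `B̄(y)` lies in every valuation subring containing `A` and `y`;
  `nn_chart_hasValue` : every `f ∈ B̄(y_P)` has a value in `A` at `P`;
* `NnSide A V red` : the soft hypotheses of ONE component (`V = V_∞` or `V_0`), with `j ∈ V`;
  `NnSide.chart_le` : `B̄(j) ⊆ V`; `NnSide.red_sub_const` : `red f ≡ f(P)` modulo `𝔪_Q` for a
  place `Q` over the centre of `P`; `NnSide.red_unit`; `NnSide.ideal_of_spec` (`NmOnOo → NmIdealOo`);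
  `NnSide.place_unique` (from [DVR] : the place over a centre is unique);
  `NnSide.hart_side` (the glued value), `NnSide.coord_unit`;
* `nn_hartogsAt` : `HartogsAt (nmG htot) ν` from [HART]; `nn_coords` : the node coordinates
  from [XY]; `nmNode` : the assembly.
-/

set_option autoImplicit false
set_option linter.unusedSectionVars false
set_option linter.unusedVariables false
set_option linter.style.haveILetI false

noncomputable section

open AlgebraicCurve ModularCurve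

namespace Fermat.Agent.H76.ORD

open Fermat.Agent.H72.FF Fermat.Agent.H18.ORD Fermat.Agent.H66 Fermat.Agent.H27.ESD
open Fermat.Agent.H84.ORD

/-! ### Arithmetic in the maximal ideal of a valuation subring -/

section ValArith

variable {K : Type*} [Field K] (W : ValuationSubring K)

theorem nn_zero_mem_nonunits : (0 : K) ∈ W.nonunits := by
  rw [ValuationSubring.mem_nonunits_iff, map_zero]
  exact zero_lt_one

theorem nn_add_mem_nonunits {a b : K} (ha : a ∈ W.nonunits) (hb : b ∈ W.nonunits) :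
    a + b ∈ W.nonunits := by
  rw [ValuationSubring.mem_nonunits_iff] at ha hb ⊢
  exact Valuation.map_add_lt _ ha hb

theorem nn_neg_mem_nonunits {a : K} (ha : a ∈ W.nonunits) : -a ∈ W.nonunits := by
  rw [ValuationSubring.mem_nonunits_iff] at ha ⊢
  rwa [Valuation.map_neg]

theorem nn_sub_mem_nonunits {a b : K} (ha : a ∈ W.nonunits) (hb : b ∈ W.nonunits) :
    a - b ∈ W.nonunits := by
  rw [sub_eq_add_neg]
  exact nn_add_mem_nonunits W ha (nn_neg_mem_nonunits W hb)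

theorem nn_mul_mem_nonunits {a b : K} (ha : a ∈ W) (hb : b ∈ W.nonunits) :
    a * b ∈ W.nonunits := by
  rw [ValuationSubring.mem_nonunits_iff] at hb ⊢
  rw [map_mul]
  have h1 : W.valuation a ≤ 1 := (W.valuation_le_one_iff a).2 ha
  calc W.valuation a * W.valuation b ≤ 1 * W.valuation b := by gcongr
    _ = W.valuation b := one_mul _
    _ < 1 := hb

theorem nn_valuation_eq_one {s : K} (hs : s ∈ W) (hsn : s ∉ W.nonunits) :
    W.valuation s = 1 := by
  have a1 : W.valuation s ≤ 1 := (W.valuation_le_one_iff s).2 hs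
  have a2 : ¬ W.valuation s < 1 := fun hlt => hsn ((W.mem_nonunits_iff).2 hlt)
  exact le_antisymm a1 (not_lt.1 a2)

/-- a unit times `x` in the maximal ideal forces `x` in the maximal ideal -/
theorem nn_nonunits_of_unit_mul {s x : K} (hs : s ∈ W) (hsn : s ∉ W.nonunits)
    (h : s * x ∈ W.nonunits) : x ∈ W.nonunits := by
  have h1 := nn_valuation_eq_one W hs hsn
  rw [ValuationSubring.mem_nonunits_iff, map_mul, h1, one_mul] at h
  exact (W.mem_nonunits_iff).2 h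

/-- `z s ∈ O`, `s` a unit of `O` : `z ∈ O` -/
theorem nn_mem_of_mul_unit {s z : K} (hs : s ∈ W) (hsn : s ∉ W.nonunits)
    (h : z * s ∈ W) : z ∈ W := by
  have h1 := nn_valuation_eq_one W hs hsn
  rw [← W.valuation_le_one_iff, map_mul, h1, mul_one] at h
  exact (W.valuation_le_one_iff z).1 h

theorem nn_mem_of_sub_nonunits {a b : K} (h : a - b ∈ W.nonunits) (hb : b ∈ W) : a ∈ W := by
  have := W.add_mem _ _ (W.nonunits_subset h) hb
  rwa [sub_add_cancel] at this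

/-- a subring with `f ∈ V ∨ f⁻¹ ∈ V` as a valuation subring -/
def nnValSub (V : Subring K) (h : ∀ f : K, f ∈ V ∨ f⁻¹ ∈ V) : ValuationSubring K :=
  { V with mem_or_inv_mem' := h }

theorem mem_nnValSub_iff (V : Subring K) (h : ∀ f : K, f ∈ V ∨ f⁻¹ ∈ V) (f : K) :
    f ∈ nnValSub V h ↔ f ∈ V := Iff.rfl

end ValArith

/-! ### Charts and values -/

section Chart

variable {N : ℕ} (A : ValuationSubring Qb)

theorem nn_nmPoly_le_chart (y : FLb N) {f : FLb N} (hf : f ∈ nmPoly N A y) :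
    f ∈ nmChart N A y := by
  rw [mem_nmChart_iff]
  exact (nmPoly N A y).subtype.isIntegralElem_map (x := ⟨f, hf⟩)

theorem nn_const_mem_chart (y : FLb N) {c : Qb} (hc : c ∈ A) :
    algebraMap Qb (FLb N) c ∈ nmChart N A y :=
  nn_nmPoly_le_chart A y (Subring.subset_closure (Or.inl ⟨c, hc, rfl⟩))

/-- the chart `B̄(y)` lies in every valuation subring containing `A` and `y` -/
theorem nn_chart_le (y : FLb N) (V : ValuationSubring (FLb N))
    (hA : ∀ c : Qb, c ∈ A → algebraMap Qb (FLb N) c ∈ V) (hy : y ∈ V) {f : FLb N}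
    (hf : f ∈ nmChart N A y) : f ∈ V := by
  rw [mem_nmChart_iff] at hf
  obtain ⟨q, hq, hq0⟩ := hf
  have hle : nmPoly N A y ≤ V.valuation.integer := by
    refine Subring.closure_le.2 ?_
    rintro x (⟨c, hc, rfl⟩ | rfl)
    · exact (V.valuation_le_one_iff _).2 (hA c hc)
    · exact (V.valuation_le_one_iff _).2 hy
  have hint : IsIntegral V.valuation.integer f := by
    refine ⟨q.map (Subring.inclusion hle), hq.map _, ?_⟩
    rw [Polynomial.eval₂_map]
    exact hq0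
  have := (Valuation.integer.integers V.valuation).mem_of_integral hint
  exact (V.valuation_le_one_iff f).1 this

/-- every place of `ℚ̄(X₀(N))` has degree one -/
theorem nn_deg [NeZero N] (P : Place Qb (FLb N)) : P.deg = 1 :=
  Fermat.Agent.H70.SS.ss_deg_eq_one_bar N P

theorem nn_nmY_mem [NeZero N] (P : Place Qb (FLb N)) : nmY A P ∈ nmComp A P (nn_deg P) := by
  classical
  unfold nmY
  split_ifs with h
  · exact h
  · exact ((nmComp A P (nn_deg P)).mem_or_inv_mem (nmJ N)).resolve_left h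

/-- every element of the chart of `P` has a value in `A` at `P` -/
theorem nn_chart_hasValue [NeZero N] (P : Place Qb (FLb N)) {f : FLb N}
    (hf : f ∈ nmChart N A (nmY A P)) : ∃ c ∈ A, HasValue P f c :=
  nn_chart_le A (nmY A P) (nmComp A P (nn_deg P))
    (fun c hc => algebraMap_mem_nmComp A P _ hc) (nn_nmY_mem A P) hf

/-- a function with a nonzero value has order `0` -/
theorem nn_ord_eq_zero (P : Place Qb (FLb N)) {f : FLb N} {c : Qb} (h : HasValue P f c)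
    (hc : c ≠ 0) : P.ord f = 0 := by
  have hv := nmv_eq_one_of_hasValue P h hc
  have hf0 : f ≠ 0 := by
    rintro rfl
    rw [map_zero] at hv
    exact zero_ne_one hv
  have h1 : f ∈ P.toValuationSubring :=
    (P.toValuationSubring.valuation_le_one_iff f).1 hv.le
  have h2 : f⁻¹ ∈ P.toValuationSubring :=
    (P.toValuationSubring.valuation_le_one_iff _).1 (by rw [map_inv₀, hv, inv_one])
  have a1 := Fermat.Agent.H23.ord_nonneg_of_mem P h1
  have a2 := Fermat.Agent.H23.ord_nonneg_of_mem P h2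
  rw [P.ord_inv] at a2
  omega

/-- `d X Y = π ψ` with `ψ(P') ≠ 0` : `X` and `Y` have order `0` at `P'` -/
theorem nn_ord_zero_of_rel [NeZero N] (P' : Place Qb (FLb N)) {X Y d ψ : FLb N} {π : Qb}
    (hπ : π ≠ 0)
    (hX : X ∈ nmChart N A (nmY A P')) (hY : Y ∈ nmChart N A (nmY A P'))
    (hd : d ∈ nmChart N A (nmY A P')) (hψ : ψ ∈ nmChart N A (nmY A P'))
    (hrel : d * X * Y = algebraMap Qb (FLb N) π * ψ) (hψn : ψ ∉ nmMax A P') :
    P'.ord X = 0 ∧ P'.ord Y = 0 := by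
  obtain ⟨cX, hcX, hXv⟩ := nn_chart_hasValue A P' hX
  obtain ⟨cY, hcY, hYv⟩ := nn_chart_hasValue A P' hY
  obtain ⟨cd, hcd, hdv⟩ := nn_chart_hasValue A P' hd
  obtain ⟨cψ, hcψ, hψv⟩ := nn_chart_hasValue A P' hψ
  have hcψ0 : cψ ≠ 0 := by
    rintro rfl
    exact hψn ⟨0, nn_zero_mem_nonunits A, hψv⟩
  have h1 : HasValue P' (d * X * Y) (cd * cX * cY) :=
    nm_hasValue_mul P' (nm_hasValue_mul P' hdv hXv) hYv
  have h2 : HasValue P' (algebraMap Qb (FLb N) π * ψ) (π * cψ) :=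
    nm_hasValue_mul P' (nm_hasValue_const P' π) hψv
  rw [hrel] at h1
  have h3 : cd * cX * cY = π * cψ := nm_hasValue_unique P' h1 h2
  have h4 : cd * cX * cY ≠ 0 := by
    rw [h3]
    exact mul_ne_zero hπ hcψ0
  have hcX0 : cX ≠ 0 := by
    rintro rfl
    apply h4
    ring
  have hcY0 : cY ≠ 0 := by
    rintro rfl
    apply h4
    ring
  exact ⟨nn_ord_eq_zero P' hXv hcX0, nn_ord_eq_zero P' hYv hcY0⟩

theorem nn_not_mem_nmMax_of_centre_eq [NeZero N] (P P' : Place Qb (FLb N))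
    (hc : nmCentre A P' = nmCentre A P) {f : FLb N}
    (hfB' : f ∈ nmChart N A (nmY A P')) (hf : f ∉ nmMax A P) : f ∉ nmMax A P' := by
  intro hmem
  have h1 : f ∈ nmCentre A P' := ⟨hfB', hmem⟩
  rw [hc] at h1
  exact hf h1.2

end Chart

/-! ### One component -/

section Side

variable {N : ℕ} [NeZero N] {A : ValuationSubring Qb} {Fk : Type} [Field Fk]
  [Algebra (kRes A) Fk]

/-- the soft hypotheses of one component `(V, red)`, and `j ∈ V` -/
structure NnSide (A : ValuationSubring Qb) {Fk : Type} [Field Fk] [Algebra (kRes A) Fk]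
    (V : Subring (FLb N)) (red : V →+* Fk) : Prop where
  const : ∀ c : Qb, c ∈ A → algebraMap Qb (FLb N) c ∈ V
  red_const : ∀ (c : A) (hc : algebraMap Qb (FLb N) (c : Qb) ∈ V),
    red ⟨_, hc⟩ = algebraMap (kRes A) Fk (IsLocalRing.residue A c)
  norm : ∀ φ : FLb N, φ ≠ 0 → ∃ (c : Qb) (u : V), c ≠ 0 ∧ red u ≠ 0 ∧
    φ = algebraMap Qb (FLb N) c * (u : FLb N)
  inv : ∀ u : V, red u ≠ 0 → (u : FLb N)⁻¹ ∈ V
  j_mem : nmJ N ∈ V

/-- `Q` lies over `S` on the component `(V, red)` -/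
def NnSpec (V : Subring (FLb N)) (red : V →+* Fk) (S : Set (FLb N))
    (Q : Place (kRes A) Fk) : Prop :=
  ∀ f ∈ S, ∀ h : f ∈ V, red ⟨f, h⟩ ∈ Q.toValuationSubring.nonunits

/-- `z ∈ red (B̄_𝔪)` on the component `(V, red)` -/
def NnLocal (A : ValuationSubring Qb) (V : Subring (FLb N)) (red : V →+* Fk)
    (P : Place Qb (FLb N)) (z : Fk) : Prop :=
  ∃ (f s : FLb N) (hf : f ∈ V) (hs : s ∈ V),
    f ∈ nmChart N A (nmY A P) ∧ s ∈ nmChart N A (nmY A P) ∧ s ∉ nmMax A P ∧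
    red ⟨f, hf⟩ = z * red ⟨s, hs⟩

variable {V : Subring (FLb N)} {red : V →+* Fk}

theorem NnSide.mem_or_inv_mem (hV : NnSide A V red) (f : FLb N) : f ∈ V ∨ f⁻¹ ∈ V := by
  by_cases hf : f = 0
  · left
    rw [hf]
    exact V.zero_mem
  obtain ⟨c, u, hc0, hu, hfu⟩ := hV.norm f hf
  by_cases hc : c ∈ A
  · left
    rw [hfu]
    exact V.mul_mem (hV.const c hc) u.2
  · right
    have hci : c⁻¹ ∈ A := (A.mem_or_inv_mem c).resolve_left hc
    rw [hfu, mul_inv, ← map_inv₀]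
    exact V.mul_mem (hV.const _ hci) (hV.inv u hu)

/-- `B̄(j) ⊆ V` -/
theorem NnSide.chart_le (hV : NnSide A V red) {f : FLb N} (hf : f ∈ nmChart N A (nmJ N)) :
    f ∈ V :=
  nn_chart_le A (nmJ N) (nnValSub V hV.mem_or_inv_mem) hV.const hV.j_mem hf

/-- `red f ≡ f(P)` modulo `𝔪_Q`, for `Q` over the centre of `P` -/
theorem NnSide.red_sub_const (hV : NnSide A V red) (P : Place Qb (FLb N))
    (Q : Place (kRes A) Fk) (hQ : NnSpec V red (nmCentre A P) Q) {f : FLb N}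
    (hfB : f ∈ nmChart N A (nmY A P)) (hfV : f ∈ V) {c : Qb} (hc : c ∈ A)
    (hfc : HasValue P f c) :
    red ⟨f, hfV⟩ - algebraMap (kRes A) Fk (IsLocalRing.residue A ⟨c, hc⟩) ∈
      Q.toValuationSubring.nonunits := by
  have hcV : algebraMap Qb (FLb N) c ∈ V := hV.const c hc
  have hgV : f - algebraMap Qb (FLb N) c ∈ V := V.sub_mem hfV hcV
  have hgB : f - algebraMap Qb (FLb N) c ∈ nmChart N A (nmY A P) :=
    (nmChart N A (nmY A P)).sub_mem hfB (nn_const_mem_chart A _ hc)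
  have hgval : HasValue P (f - algebraMap Qb (FLb N) c) 0 := by
    have := nm_hasValue_sub P hfc (nm_hasValue_const P c)
    rwa [sub_self] at this
  have hgM : f - algebraMap Qb (FLb N) c ∈ nmMax A P := ⟨0, nn_zero_mem_nonunits A, hgval⟩
  have h1 := hQ _ ⟨hgB, hgM⟩ hgV
  have e : red ⟨f - algebraMap Qb (FLb N) c, hgV⟩ =
      red ⟨f, hfV⟩ - red ⟨algebraMap Qb (FLb N) c, hcV⟩ := by
    rw [← map_sub]
    rfl
  rw [e, hV.red_const ⟨c, hc⟩ hcV] at h1
  exact h1

/-- the reduction of an element of `B̄ ∖ 𝔪` is a unit at every place over `𝔪` -/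
theorem NnSide.red_unit (hV : NnSide A V red) (P : Place Qb (FLb N))
    (Q : Place (kRes A) Fk) (hQ : NnSpec V red (nmCentre A P) Q) {s : FLb N}
    (hsB : s ∈ nmChart N A (nmY A P)) (hsV : s ∈ V) (hsn : s ∉ nmMax A P) :
    red ⟨s, hsV⟩ ∈ Q.toValuationSubring ∧ red ⟨s, hsV⟩ ∉ Q.toValuationSubring.nonunits := by
  obtain ⟨c, hc, hsc⟩ := nn_chart_hasValue A P hsB
  have h1 := hV.red_sub_const P Q hQ hsB hsV hc hsc
  have hk : algebraMap (kRes A) Fk (IsLocalRing.residue A ⟨c, hc⟩) ∈ Q.toValuationSubring :=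
    Q.algebraMap_mem' _
  refine ⟨nn_mem_of_sub_nonunits _ h1 hk, fun hmem => hsn ?_⟩
  have h2 : algebraMap (kRes A) Fk (IsLocalRing.residue A ⟨c, hc⟩) ∈
      Q.toValuationSubring.nonunits := by
    have := nn_sub_mem_nonunits _ hmem h1
    rwa [sub_sub_cancel] at this
  have h3 : IsLocalRing.residue A ⟨c, hc⟩ = 0 := nb_const_eq_zero_of_mem_nonunits Q h2
  rw [IsLocalRing.residue_eq_zero_iff, ← A.coe_mem_nonunits_iff] at h3
  exact ⟨c, h3, hsc⟩

/-- a centre on the component lies on it in the ideal form (`NmOn → NmIdeal`) -/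
theorem NnSide.ideal_of_spec (hV : NnSide A V red) (P : Place Qb (FLb N))
    (Q : Place (kRes A) Fk) (hQ : NnSpec V red (nmCentre A P) Q) :
    ∀ f ∈ nmChart N A (nmY A P), ∀ h : f ∈ V, red ⟨f, h⟩ = 0 → f ∈ nmMax A P := by
  intro f hfB hfV h0
  by_contra hfn
  have := (hV.red_unit P Q hQ hfB hfV hfn).2
  rw [h0] at this
  exact this (nn_zero_mem_nonunits _)

/-- **uniqueness of the place over a centre** (from [DVR]) -/
theorem NnSide.place_unique (hV : NnSide A V red) (P : Place Qb (FLb N))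
    (Qd Q1 : Place (kRes A) Fk)
    (hloc : ∀ z ∈ Qd.toValuationSubring, NnLocal A V red P z)
    (hQ1 : NnSpec V red (nmCentre A P) Q1) : Qd = Q1 := by
  refine Fermat.Agent.H23.place_ext_of_ord Qd Q1 fun z hz => ?_
  have hzd : z ∈ Qd.toValuationSubring := Fermat.Agent.H23.mem_of_ord_nonneg Qd hz
  obtain ⟨f, s, hf, hs, hfB, hsB, hsn, heq⟩ := hloc z hzd
  obtain ⟨hs1, hs2⟩ := hV.red_unit P Q1 hQ1 hsB hs hsn
  obtain ⟨c, hc, hfc⟩ := nn_chart_hasValue A P hfB
  have hf1 : red ⟨f, hf⟩ ∈ Q1.toValuationSubring :=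
    nn_mem_of_sub_nonunits _ (hV.red_sub_const P Q1 hQ1 hfB hf hc hfc) (Q1.algebraMap_mem' _)
  rw [heq] at hf1
  exact Fermat.Agent.H23.ord_nonneg_of_mem Q1 (nn_mem_of_mul_unit _ hs1 hs2 hf1)

/-- **the glued value, one side** : `red z ≡ b(P) / s(P)` modulo `𝔪_Q` when `s z = b`,
`s ∈ B̄ ∖ 𝔪`, `b ∈ B̄`. -/
theorem NnSide.hart_side (hV : NnSide A V red) (P : Place Qb (FLb N))
    (Q : Place (kRes A) Fk) (hQ : NnSpec V red (nmCentre A P) Q) {z s : FLb N}
    (hzV : z ∈ V) (hsB : s ∈ nmChart N A (nmY A P)) (hsV : s ∈ V) (hsn : s ∉ nmMax A P)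
    (hbB : s * z ∈ nmChart N A (nmY A P)) {cs cb : Qb} (hcs : cs ∈ A) (hcb : cb ∈ A)
    (hs : HasValue P s cs) (hb : HasValue P (s * z) cb) :
    red ⟨z, hzV⟩ - algebraMap (kRes A) Fk
        (IsLocalRing.residue A ⟨cb, hcb⟩ * (IsLocalRing.residue A ⟨cs, hcs⟩)⁻¹) ∈
      Q.toValuationSubring.nonunits := by
  have hbV : s * z ∈ V := V.mul_mem hsV hzV
  have h1 := hV.red_sub_const P Q hQ hsB hsV hcs hs
  have h2 := hV.red_sub_const P Q hQ hbB hbV hcb hb
  obtain ⟨hs1, hs2⟩ := hV.red_unit P Q hQ hsB hsV hsn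
  have hres : IsLocalRing.residue A ⟨cs, hcs⟩ ≠ 0 := by
    intro h0
    rw [IsLocalRing.residue_eq_zero_iff, ← A.coe_mem_nonunits_iff] at h0
    exact hsn ⟨cs, h0, hs⟩
  have hmul : red ⟨s * z, hbV⟩ = red ⟨s, hsV⟩ * red ⟨z, hzV⟩ := by
    rw [← map_mul]
    rfl
  refine nn_nonunits_of_unit_mul _ hs1 hs2 ?_
  have hks : algebraMap (kRes A) Fk (IsLocalRing.residue A ⟨cs, hcs⟩) ≠ 0 := by
    rwa [Ne, map_eq_zero_iff _ (algebraMap (kRes A) Fk).injective]
  have e : red ⟨s, hsV⟩ * (red ⟨z, hzV⟩ - algebraMap (kRes A) Fk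
        (IsLocalRing.residue A ⟨cb, hcb⟩ * (IsLocalRing.residue A ⟨cs, hcs⟩)⁻¹)) =
      (red ⟨s * z, hbV⟩ - algebraMap (kRes A) Fk (IsLocalRing.residue A ⟨cb, hcb⟩)) -
        algebraMap (kRes A) Fk
          (IsLocalRing.residue A ⟨cb, hcb⟩ * (IsLocalRing.residue A ⟨cs, hcs⟩)⁻¹) *
        (red ⟨s, hsV⟩ - algebraMap (kRes A) Fk (IsLocalRing.residue A ⟨cs, hcs⟩)) := by
    rw [hmul, map_mul, map_inv₀]
    field_simp
    ring
  rw [e]
  exact nn_sub_mem_nonunits _ h2 (nn_mul_mem_nonunits _ (Q.algebraMap_mem' _) h1)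

/-- **the unit part of a node coordinate** : if `d X Y = π ψ` with `d, ψ ∈ B̄ ∖ 𝔪` and
`red X ≠ 0`, then `Y / π` is a unit of `V`. -/
theorem NnSide.coord_unit (hV : NnSide A V red) (P : Place Qb (FLb N))
    (Q : Place (kRes A) Fk) (hQ : NnSpec V red (nmCentre A P) Q)
    (hy : nmY A P = nmJ N) {X Y d ψ : FLb N} {π : Qb} (hπ : π ≠ 0)
    (hd : d ∈ nmChart N A (nmJ N)) (hψ : ψ ∈ nmChart N A (nmJ N))
    (hrel : d * X * Y = algebraMap Qb (FLb N) π * ψ)
    (hdn : d ∉ nmMax A P) (hψn : ψ ∉ nmMax A P)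
    (hXV : X ∈ V) (hredX : red ⟨X, hXV⟩ ≠ 0) :
    ∃ h : Y * (algebraMap Qb (FLb N) π)⁻¹ ∈ V, red ⟨_, h⟩ ≠ 0 := by
  have hdV : d ∈ V := hV.chart_le hd
  have hψV : ψ ∈ V := hV.chart_le hψ
  have hdB' : d ∈ nmChart N A (nmY A P) := by rw [hy]; exact hd
  have hψB' : ψ ∈ nmChart N A (nmY A P) := by rw [hy]; exact hψ
  have hredd : red ⟨d, hdV⟩ ≠ 0 := fun h0 =>
    (hV.red_unit P Q hQ hdB' hdV hdn).2 (by rw [h0]; exact nn_zero_mem_nonunits _)
  have hredψ : red ⟨ψ, hψV⟩ ≠ 0 := fun h0 =>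
    (hV.red_unit P Q hQ hψB' hψV hψn).2 (by rw [h0]; exact nn_zero_mem_nonunits _)
  have hdXV : d * X ∈ V := V.mul_mem hdV hXV
  have hreddX : red ⟨d * X, hdXV⟩ ≠ 0 := by
    have : red ⟨d * X, hdXV⟩ = red ⟨d, hdV⟩ * red ⟨X, hXV⟩ := by
      rw [← map_mul]
      rfl
    rw [this]
    exact mul_ne_zero hredd hredX
  have hinv : (d * X)⁻¹ ∈ V := hV.inv ⟨d * X, hdXV⟩ hreddX
  have hπF : algebraMap Qb (FLb N) π ≠ 0 := by
    rwa [Ne, map_eq_zero_iff _ (algebraMap Qb (FLb N)).injective]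
  have hdX0 : d * X ≠ 0 := by
    intro h0
    apply hreddX
    have : (⟨d * X, hdXV⟩ : V) = 0 := Subtype.ext h0
    rw [this, map_zero]
  have e : Y * (algebraMap Qb (FLb N) π)⁻¹ = ψ * (d * X)⁻¹ := by
    rw [eq_mul_inv_iff_mul_eq₀ hdX0]
    have e1 : Y * (algebraMap Qb (FLb N) π)⁻¹ * (d * X) =
        (d * X * Y) * (algebraMap Qb (FLb N) π)⁻¹ := by ring
    rw [e1, hrel, mul_comm (algebraMap Qb (FLb N) π) ψ, mul_assoc, mul_inv_cancel₀ hπF,
      mul_one]
  have hmem : Y * (algebraMap Qb (FLb N) π)⁻¹ ∈ V := by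
    rw [e]
    exact V.mul_mem hψV hinv
  refine ⟨hmem, fun h0 => hredψ ?_⟩
  have e2 : (⟨ψ, hψV⟩ : V) = ⟨Y * (algebraMap Qb (FLb N) π)⁻¹, hmem⟩ * ⟨d * X, hdXV⟩ := by
    apply Subtype.ext
    show ψ = Y * (algebraMap Qb (FLb N) π)⁻¹ * (d * X)
    rw [e, mul_assoc, inv_mul_cancel₀ hdX0, mul_one]
  rw [e2, map_mul, h0, zero_mul]

end Side

/-! ### The two components of `X₀(M p)` -/

section Inst

/-- `j(q^d) ∈ V_∞` -/
theorem nn_jBarD_mem_gauss (N : ℕ) [NeZero N] (A : ValuationSubring Qb) (d : ℕ) [NeZero d]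
    (hd : d ∣ N) : Fermat.Agent.H23.jBarD N d hd ∈ gaussOBar N A := by
  have h : qExpand (AlgebraicClosure ℚ) d (jqModC (AlgebraicClosure ℚ)) =
      coeffEmb (AlgebraicClosure ℚ) (qExpand ℚ d jq) := by
    rw [coeffEmb, coeffMap_qExpand, ← jqModC_rat, coeffMap_jqModC]
  refine mem_gaussOBar_of_eq_vIota N A (Y := qExpand ↥A d (jqModC ↥A)) ?_
  rw [← qExpand_jqModC_eq_vIota A d, h]
  rfl

variable {M p : ℕ} [NeZero M] [NeZero p]

theorem nn_nmJ_mem_gauss (A : ValuationSubring Qb) : nmJ (M * p) ∈ gaussOBar (M * p) A :=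
  nn_jBarD_mem_gauss (M * p) A 1 (one_dvd _)

theorem nn_nmJ_mem_V0 (hcop : Nat.Coprime M p) (A : ValuationSubring Qb) :
    nmJ (M * p) ∈ nmV0 M p hcop A := by
  rw [mem_nmV0_iff]
  obtain ⟨d'', hd0, hd'', h1, -⟩ := (nmW_spec M p hcop).1 1 inferInstance (one_dvd _)
  haveI := hd0
  have h2 : nmW M p hcop (nmJ (M * p)) = Fermat.Agent.H23.jBarD (M * p) d'' hd'' := h1
  rw [h2]
  exact nn_jBarD_mem_gauss (M * p) A d'' hd''

theorem nn_sideOo (hSoft : NmSoftStatement M p) (A : ValuationSubring Qb)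
    (h : NmSetup M p A) : NnSide A (gaussOBar (M * p) A) (nmRedOo (M * p) A) := by
  obtain ⟨s1, s2, s3, s4, s5, s6, s7, s8, -, -, -⟩ := hSoft A h
  exact ⟨fun c hc => (s1 c).2 hc, s3, s5, s7, nn_nmJ_mem_gauss A⟩

theorem nn_sideZero (hSoft : NmSoftStatement M p) (A : ValuationSubring Qb)
    (h : NmSetup M p A) : NnSide A (nmV0 M p h.cop A) (nmRed0 M p h.cop A) := by
  obtain ⟨s1, s2, s3, s4, s5, s6, s7, s8, -, -, -⟩ := hSoft A h
  exact ⟨fun c hc => (s2 c).2 hc, s4, s6, s8, nn_nmJ_mem_V0 h.cop A⟩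

theorem nn_specOo (A : ValuationSubring Qb) (h : NmSetup M p A) (ν : NmNode M p h.cop A)
    (P : Place Qb (FLb (M * p))) (hcen : nmCentre A P = ν.1) :
    NnSpec (gaussOBar (M * p) A) (nmRedOo (M * p) A) (nmCentre A P)
      (nmNOo M p h.cop A ν) := by
  rw [hcen]
  exact nmNOo_spec M p h.cop A ν

theorem nn_specZero (A : ValuationSubring Qb) (h : NmSetup M p A) (ν : NmNode M p h.cop A)
    (P : Place Qb (FLb (M * p))) (hcen : nmCentre A P = ν.1) :
    NnSpec (nmV0 M p h.cop A) (nmRed0 M p h.cop A) (nmCentre A P)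
      (nmN0 M p h.cop A ν) := by
  rw [hcen]
  exact nmN0_spec M p h.cop A ν

/-- a place over a node lies on both components, in the ideal form -/
theorem nn_ideals (hSoft : NmSoftStatement M p) (A : ValuationSubring Qb)
    (h : NmSetup M p A) (ν : NmNode M p h.cop A) (P : Place Qb (FLb (M * p)))
    (hcen : nmCentre A P = ν.1) : NmIdealOo M p A P ∧ NmIdealZero M p h.cop A P :=
  ⟨(nn_sideOo hSoft A h).ideal_of_spec P _ (nn_specOo A h ν P hcen),
    (nn_sideZero hSoft A h).ideal_of_spec P _ (nn_specZero A h ν P hcen)⟩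

/-! ### Hartogs at the node -/

/-- **`HartogsAt (nmG htot) ν`** from [HART]. -/
theorem nn_hartogsAt (hHart : NmHartogsStatement M p) (hXY : NmCrossStatement M p)
    (hSoft : NmSoftStatement M p) (A : ValuationSubring Qb) (h : NmSetup M p A)
    (htot : NmTot M p h.cop A) (ν : NmNode M p h.cop A) :
    Fermat.Agent.H91.ORD.HartogsAt (nmG htot) ν := by
  intro z hz hz0 hpole
  -- the base point: a place over `ν`, a zero of `z` if there is one
  have hbase : ∃ P : Place Qb (FLb (M * p)), nmCentre A P = ν.1 ∧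
      ((∃ P', (nmG htot).r P' = NPt.node ν ∧ 0 < P'.ord z) → 0 < P.ord z) := by
    by_cases hex : ∃ P', (nmG htot).r P' = NPt.node ν ∧ 0 < P'.ord z
    · obtain ⟨P', hP', hpos⟩ := hex
      exact ⟨P', (nmR_node_iff htot P' ν).1 hP', fun _ => hpos⟩
    · obtain ⟨P, hP⟩ := ν.2.1
      exact ⟨P, hP, fun h' => absurd h' hex⟩
  obtain ⟨P, hcen, hzero⟩ := hbase
  obtain ⟨hIoo, hI0⟩ := nn_ideals hSoft A h ν P hcen
  obtain ⟨hy, -⟩ := hXY A h P hIoo hI0
  obtain ⟨s, hsB, hsn, hbB⟩ := hHart A h P z (fun _ => hz) (fun _ => hz0)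
    (fun P' hP' => Or.inr (hpole P' ((nmR_node_iff htot P' ν).2 (hP'.trans hcen))))
  have sOo := nn_sideOo hSoft A h
  have sZ := nn_sideZero hSoft A h
  have hsVoo : s ∈ gaussOBar (M * p) A := sOo.chart_le (by rw [← hy]; exact hsB)
  have hsV0 : s ∈ nmV0 M p h.cop A := sZ.chart_le (by rw [← hy]; exact hsB)
  obtain ⟨cs, hcs, hs⟩ := nn_chart_hasValue A P hsB
  obtain ⟨cb, hcb, hb⟩ := nn_chart_hasValue A P hbB
  refine ⟨IsLocalRing.residue A ⟨cb, hcb⟩ * (IsLocalRing.residue A ⟨cs, hcs⟩)⁻¹, ?_, ?_, ?_⟩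
  · exact sOo.hart_side P (nmNOo M p h.cop A ν) (nn_specOo A h ν P hcen) hz hsB hsVoo hsn hbB
      hcs hcb hs hb
  · exact sZ.hart_side P (nmN0 M p h.cop A ν) (nn_specZero A h ν P hcen) hz0 hsB hsV0 hsn hbB
      hcs hcb hs hb
  · intro hex
    have hpos := hzero hex
    have hz0v : HasValue P z 0 := Or.inr (by rw [map_zero, sub_zero]; omega)
    have hb' : HasValue P (s * z) (cs * 0) := nm_hasValue_mul P hs hz0v
    have hcb0 : cb = 0 := by rw [nm_hasValue_unique P hb hb', mul_zero]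
    have e : (⟨cb, hcb⟩ : A) = 0 := Subtype.ext hcb0
    rw [e, map_zero, zero_mul]

/-! ### The coordinates at the node -/

/-- **the node coordinates** from [XY] and [DVR]. -/
theorem nn_coords (hXY : NmCrossStatement M p) (hDoo : NmDvrOoStatement M p)
    (hD0 : NmDvrZeroStatement M p) (hSoft : NmSoftStatement M p) (A : ValuationSubring Qb)
    (h : NmSetup M p A) (htot : NmTot M p h.cop A) (ν : NmNode M p h.cop A) :
    ∃ X Y : FLb (M * p), Fermat.Agent.H91.ORD.IsNodeCoordOo p (nmG htot) ν Y ∧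
      Fermat.Agent.H91.ORD.IsNodeCoordZero p (nmG htot) ν X := by
  obtain ⟨P, hcen⟩ := ν.2.1
  obtain ⟨hIoo, hI0⟩ := nn_ideals hSoft A h ν P hcen
  obtain ⟨hy, X, Y, d, ψ, hXB, hYB, hdB, hψB, hrel, hdn, hψn, hXm, hYm, ⟨hXoo, hXred⟩,
    ⟨hY0, hYred⟩, Q, Q', hQ, hQ', ⟨hYoo, hYord⟩, ⟨hX0, hXord⟩⟩ := hXY A h P hIoo hI0
  have sOo := nn_sideOo hSoft A h
  have sZ := nn_sideZero hSoft A h
  have hspecOo := nn_specOo A h ν P hcen
  have hspec0 := nn_specZero A h ν P hcen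
  -- uniqueness of the branches
  obtain ⟨Qd, hQd, hloc⟩ := hDoo A h P hIoo
  have hQeq : Q = nmNOo M p h.cop A ν :=
    (sOo.place_unique P Qd Q hloc hQ).symm.trans (sOo.place_unique P Qd _ hloc hspecOo)
  obtain ⟨Qd', hQd', hloc'⟩ := hD0 A h P hI0
  have hQ'eq : Q' = nmN0 M p h.cop A ν :=
    (sZ.place_unique P Qd' Q' hloc' hQ').symm.trans (sZ.place_unique P Qd' _ hloc' hspec0)
  have hp0 : (p : Qb) ≠ 0 := Nat.cast_ne_zero.2 h.prime.ne_zero
  -- no zero or pole over the node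
  have hord : ∀ P', (nmG htot).r P' = NPt.node ν → P'.ord X = 0 ∧ P'.ord Y = 0 := by
    intro P' hP'
    have hcen' : nmCentre A P' = ν.1 := (nmR_node_iff htot P' ν).1 hP'
    obtain ⟨hIoo', hI0'⟩ := nn_ideals hSoft A h ν P' hcen'
    obtain ⟨hy', -⟩ := hXY A h P' hIoo' hI0'
    refine nn_ord_zero_of_rel A P' hp0 (by rw [hy']; exact hXB) (by rw [hy']; exact hYB)
      (by rw [hy']; exact hdB) (by rw [hy']; exact hψB) hrel ?_
    exact nn_not_mem_nmMax_of_centre_eq A P P' (hcen'.trans hcen.symm)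
      (by rw [hy']; exact hψB) hψn
  have hredX : nmRed0 M p h.cop A ⟨X, hX0⟩ ≠ 0 := by
    intro h0
    rw [h0, Place.ord_zero] at hXord
    exact zero_ne_one hXord
  have hredY : nmRedOo (M * p) A ⟨Y, hYoo⟩ ≠ 0 := by
    intro h0
    rw [h0, Place.ord_zero] at hYord
    exact zero_ne_one hYord
  have hrel' : d * Y * X = algebraMap Qb (FLb (M * p)) (p : Qb) * ψ := by
    rw [← hrel]
    ring
  refine ⟨X, Y, ⟨fun P' hP' => (hord P' hP').2, ⟨hYoo, ?_⟩, ?_⟩,
    ⟨fun P' hP' => (hord P' hP').1, ⟨hX0, ?_⟩, ?_⟩⟩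
  · show (nmNOo M p h.cop A ν).ord (nmRedOo (M * p) A ⟨Y, hYoo⟩) = 1
    rw [← hQeq]
    exact hYord
  · exact sZ.coord_unit P (nmN0 M p h.cop A ν) hspec0 hy hp0 hdB hψB hrel hdn hψn hX0 hredX
  · show (nmN0 M p h.cop A ν).ord (nmRed0 M p h.cop A ⟨X, hX0⟩) = 1
    rw [← hQ'eq]
    exact hXord
  · exact sOo.coord_unit P (nmNOo M p h.cop A ν) hspecOo hy hp0 hdB hψB hrel' hdn hψn hYoo
      hredY

end Inst

/-! ### The assembly -/

/-- **B1-NODE** : the node fields `node_le`, `node_lt`, `glue` of `NodalRvHyp p (nmG htot)`,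
from [HART], [XY], [DVR] and the soft fields. -/
theorem nmNode (M p : ℕ) [NeZero M] [NeZero p] :
    NmHartogsStatement M p → NmCrossStatement M p → NmTotIdealStatement M p →
    NmDvrOoStatement M p → NmDvrZeroStatement M p → NmSoftStatement M p →
    NmNodeStatement M p := by
  intro hHart hXY _ hDoo hD0 hSoft A h htot
  obtain ⟨s1, s2, s3, s4, s5, s6, s7, s8, s9, s10, s11⟩ := hSoft A h
  have hp : p ≠ 0 := h.prime.ne_zero
  refine ⟨?_, ?_, ?_⟩
  · intro u w c hu hw hwu ν hpole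
    obtain ⟨X, Y, hY, hX⟩ := nn_coords hXY hDoo hD0 hSoft A h htot ν
    exact (Fermat.Agent.H91.ORD.node_slopes hp (fun c hc => (s1 c).2 hc)
      (fun c hc => (s2 c).2 hc) s3 s4 s7 s8 ν (nn_hartogsAt hHart hXY hSoft A h htot ν) hY hX
      u w c hu hw hwu hpole).1
  · intro u w c hu hw hwu ν hpole hex
    obtain ⟨X, Y, hY, hX⟩ := nn_coords hXY hDoo hD0 hSoft A h htot ν
    exact (Fermat.Agent.H91.ORD.node_slopes hp (fun c hc => (s1 c).2 hc)
      (fun c hc => (s2 c).2 hc) s3 s4 s7 s8 ν (nn_hartogsAt hHart hXY hSoft A h htot ν) hY hX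
      u w c hu hw hwu hpole).2 hex
  · intro u hu hu0 hr hr0 ν hord
    exact Fermat.Agent.H91.ORD.node_glue s7 s8 ν (nn_hartogsAt hHart hXY hSoft A h htot ν)
      u hu hu0 hr hr0 hord

end Fermat.Agent.H76.ORD

end
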