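import Fermat.Agent.H41.ORD.DvrInterfaces
import Fermat.Agent.H32.ORD.NmTotIdeal
import Fermat.Agent.H91.ORD.NodeAbs

/-!
# P-ORD, block B1, row 1158 [DVR], part (F3) (helper76) : the FACTORISATION at the NON-NODE centres

`nmFactorOo_nonNode : [HART] → [PG] → NmSoft → ∀ A h P, NmIdealOo P → ¬ NmIdealZero P →
  GenFactor A V_∞ red_∞ P`   (and the twin `nmFactorZero_nonNode`).

Abstract on the API of helper84 (no model input).  Generic component `(V, red)`
(`Fermat.Agent.H84.ORD.CompSoft`), `P` a place of `F = FLb N`, `𝔪` its centre, `Δ` the residue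
disc `{P' | centre P' = 𝔪}`, `O = red (B̄_𝔪) = {z | GenLocal A V red P z}`.  Hypotheses at `P`:

* `FnHart A V P` : a function of `V` without pole on `Δ` lies in `B̄_𝔪` (= [HART] at a centre which
  lies on ONE component only);
* `FnPG A P` : every place of `Δ` has a generator ([PG]);
* `𝔮 ∩ B̄ ⊆ 𝔪` (`NmIdealOo`), `red` surjective, finiteness of the support of a function.

Proof: `τ = red t`, `t` a normalised generator at `P`.  `τ ∈ O` by Hartogs, `τ⁻¹ ∉ O` because
`s t ∈ 𝔪` for some `s ∈ B̄ ∖ 𝔪`.  The reductions of units of `V` without zero or pole on `Δ` are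
units of `O` (Hartogs, twice); the reduction of a generator `t₁` at `P₁ ∈ Δ` is `unit · τ` :
`(t₁ - t₁(P)) / t` and `(t - t(P₁)) / t₁` have no pole on `Δ` and `t₁(P), t(P₁) ∈ 𝔪_A`.
Induction on the number of zeros and poles on `Δ` of `u ∈ Vˣ` : `red u = unit · τ ^ n`.
-/

set_option autoImplicit false
set_option linter.unusedSectionVars false
set_option linter.unusedVariables false
set_option linter.style.haveILetI false

noncomputable section

open AlgebraicCurve ModularCurve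

namespace Fermat.Agent.H76.ORD

open Fermat.Agent.H72.FF Fermat.Agent.H18.ORD Fermat.Agent.H66 Fermat.Agent.H27.ESD
open Fermat.Agent.H84.ORD Fermat.Agent.H41.ORD

section Gen

variable {N : ℕ} [NeZero N] {A : ValuationSubring Qb} {Fk : Type} [Field Fk]
  [Algebra (kRes A) Fk] {V : Subring (FLb N)} {red : V →+* Fk}

/-- **Hartogs on the component** at the centre of `P` : a function of `V` without pole on the
residue disc of `P` lies in `B̄_𝔪`. -/
def FnHart (A : ValuationSubring Qb) (V : Subring (FLb N)) (P : Place Qb (FLb N)) : Prop :=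
  ∀ g : FLb N, g ∈ V →
    (∀ P' : Place Qb (FLb N), nmCentre A P' = nmCentre A P → g = 0 ∨ 0 ≤ P'.ord g) →
    ∃ s ∈ nmChart N A (nmY A P), s ∉ nmMax A P ∧ s * g ∈ nmChart N A (nmY A P)

/-- **place generators** on the residue disc of `P` -/
def FnPG (A : ValuationSubring Qb) (P : Place Qb (FLb N)) : Prop :=
  ∀ P' : Place Qb (FLb N), nmCentre A P' = nmCentre A P →
    ∃ t : FLb N, P'.ord t = 1 ∧
      ∀ P'' : Place Qb (FLb N), nmCentre A P'' = nmCentre A P → P'' ≠ P' → P''.ord t = 0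

/-- a normalised generator at the place `P'` of the disc of `P` : a unit of `V` of order `1` at
`P'` and of order `0` at the other places of the disc -/
structure FnGen (A : ValuationSubring Qb) [Algebra (kRes A) Fk] (V : Subring (FLb N))
    (red : V →+* Fk) (P P' : Place Qb (FLb N)) (t : FLb N) : Prop where
  mem : t ∈ V
  red_ne : red ⟨t, mem⟩ ≠ 0
  ord_self : P'.ord t = 1
  ord_other : ∀ P'' : Place Qb (FLb N), nmCentre A P'' = nmCentre A P → P'' ≠ P' →
    P''.ord t = 0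

/-- the subgroup `Oˣ · τ ^ ℤ` -/
def FnInG (A : ValuationSubring Qb) [Algebra (kRes A) Fk] (V : Subring (FLb N))
    (red : V →+* Fk) (P : Place Qb (FLb N)) (τ z : Fk) : Prop :=
  ∃ (n : ℤ) (ε : Fk), GenLocal A V red P ε ∧ GenLocal A V red P ε⁻¹ ∧ z = ε * τ ^ n

variable (P : Place Qb (FLb N))

/-! ### The group `Oˣ · τ ^ ℤ` -/

theorem fn_inG_one (H : CompSoft A V red) (τ : Fk) : FnInG A V red P τ 1 :=
  ⟨0, 1, genLocal_one P H, by rw [inv_one]; exact genLocal_one P H, by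
    rw [zpow_zero, mul_one]⟩

theorem fn_inG_mul (H : CompSoft A V red) {τ : Fk} (hτ : τ ≠ 0) {z w : Fk}
    (hz : FnInG A V red P τ z) (hw : FnInG A V red P τ w) : FnInG A V red P τ (z * w) := by
  obtain ⟨n, ε, h1, h2, rfl⟩ := hz
  obtain ⟨m, δ, h3, h4, rfl⟩ := hw
  refine ⟨n + m, ε * δ, genLocal_mul P H h1 h3, ?_, ?_⟩
  · rw [mul_inv]
    exact genLocal_mul P H h2 h4
  · rw [zpow_add₀ hτ]
    ring

theorem fn_inG_inv (H : CompSoft A V red) {τ : Fk} {z : Fk}
    (hz : FnInG A V red P τ z) : FnInG A V red P τ z⁻¹ := by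
  obtain ⟨n, ε, h1, h2, rfl⟩ := hz
  refine ⟨-n, ε⁻¹, h2, ?_, ?_⟩
  · rw [inv_inv]
    exact h1
  · rw [mul_inv, zpow_neg]

theorem fn_inG_pow (H : CompSoft A V red) {τ : Fk} (hτ : τ ≠ 0) {z : Fk}
    (hz : FnInG A V red P τ z) (k : ℕ) : FnInG A V red P τ (z ^ k) := by
  induction k with
  | zero =>
    rw [pow_zero]
    exact fn_inG_one P H τ
  | succ k ih =>
    rw [pow_succ]
    exact fn_inG_mul P H hτ ih hz

theorem fn_inG_zpow (H : CompSoft A V red) {τ : Fk} (hτ : τ ≠ 0) {z : Fk}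
    (hz : FnInG A V red P τ z) (a : ℤ) : FnInG A V red P τ (z ^ a) := by
  rcases a with k | k
  · rw [Int.ofNat_eq_natCast, zpow_natCast]
    exact fn_inG_pow P H hτ hz k
  · rw [zpow_negSucc]
    exact fn_inG_inv P H (fn_inG_pow P H hτ hz (k + 1))

/-! ### The disc -/

/-- the places of the disc of `P` are in the chart of `P` -/
theorem fn_chart_eq (H : CompSoft A V red) {P' : Place Qb (FLb N)}
    (hP' : nmCentre A P' = nmCentre A P) : nmY A P' = nmY A P :=
  Fermat.Agent.H32.ORD.nmY_eq_of_centre_eq (A := A) P P' (H.deg P) (H.deg P') hP'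

theorem fn_mem_nmMax_iff (H : CompSoft A V red) {P' : Place Qb (FLb N)}
    (hP' : nmCentre A P' = nmCentre A P) {f : FLb N} (hf : f ∈ nmChart N A (nmY A P)) :
    f ∈ nmMax A P' ↔ f ∈ nmMax A P := by
  have hY := fn_chart_eq P H hP'
  constructor
  · intro h
    have h1 : f ∈ nmCentre A P' := ⟨by rw [hY]; exact hf, h⟩
    rw [hP'] at h1
    exact h1.2
  · intro h
    have h1 : f ∈ nmCentre A P := ⟨hf, h⟩
    rw [← hP'] at h1
    exact h1.2

theorem fn_value (H : CompSoft A V red) {P' : Place Qb (FLb N)}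
    (hP' : nmCentre A P' = nmCentre A P) {f : FLb N} (hf : f ∈ nmChart N A (nmY A P)) :
    ∃ c ∈ A, HasValue P' f c :=
  nmChart_value P' (H.deg P') (by rw [fn_chart_eq P H hP']; exact hf)

theorem fn_zero_mem_nonunits : (0 : Qb) ∈ A.nonunits := by
  rw [ValuationSubring.mem_nonunits_iff, map_zero]
  exact zero_lt_one

theorem fn_hasValue_zero {P' : Place Qb (FLb N)} {t : FLb N} (h : 1 ≤ P'.ord t) :
    HasValue P' t 0 :=
  Or.inr (by rw [map_zero, sub_zero]; exact h)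

/-! ### Hartogs : local elements -/

/-- the reduction of a function of `V` without pole on the disc is local -/
theorem fn_local_of_polefree (H : CompSoft A V red) (hart : FnHart A V P) {g : FLb N}
    (hg : g ∈ V)
    (hpf : ∀ P' : Place Qb (FLb N), nmCentre A P' = nmCentre A P →
      g ∈ P'.toValuationSubring) :
    GenLocal A V red P (red ⟨g, hg⟩) := by
  obtain ⟨s, hsB, hsn, hsg⟩ := hart g hg
    (fun P' hP' => (Fermat.Agent.H23.mem_iff_ord P').1 (hpf P' hP'))
  have hsV : s ∈ V := H.chart_le P hsB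
  refine ⟨s * g, s, V.mul_mem hsV hg, hsV, hsg, hsB, hsn, ?_⟩
  have e : (⟨s * g, V.mul_mem hsV hg⟩ : V) = ⟨g, hg⟩ * ⟨s, hsV⟩ := Subtype.ext (mul_comm s g)
  rw [e, map_mul]

theorem fn_ne_zero_of_red {g : FLb N} (hg : g ∈ V) (hr : red ⟨g, hg⟩ ≠ 0) : g ≠ 0 := by
  rintro rfl
  apply hr
  have : (⟨0, hg⟩ : V) = 0 := rfl
  rw [this, map_zero]

theorem fn_red_inv (H : CompSoft A V red) {g : FLb N} (hg : g ∈ V) (hr : red ⟨g, hg⟩ ≠ 0) :
    red ⟨g⁻¹, H.inv ⟨g, hg⟩ hr⟩ = (red ⟨g, hg⟩)⁻¹ := by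
  have hg0 : g ≠ 0 := fn_ne_zero_of_red hg hr
  have h1 : red ⟨g, hg⟩ * red ⟨g⁻¹, H.inv ⟨g, hg⟩ hr⟩ = 1 := by
    rw [← map_mul]
    have : (⟨g, hg⟩ : V) * ⟨g⁻¹, H.inv ⟨g, hg⟩ hr⟩ = 1 := Subtype.ext (mul_inv_cancel₀ hg0)
    rw [this, map_one]
  exact eq_inv_of_mul_eq_one_right h1

/-- the reduction of a unit of `V` without zero or pole on the disc is a unit of `O` -/
theorem fn_unit (H : CompSoft A V red) (hart : FnHart A V P) {g : FLb N} (hg : g ∈ V)
    (hr : red ⟨g, hg⟩ ≠ 0)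
    (hord : ∀ P' : Place Qb (FLb N), nmCentre A P' = nmCentre A P → P'.ord g = 0) :
    GenLocal A V red P (red ⟨g, hg⟩) ∧ GenLocal A V red P (red ⟨g, hg⟩)⁻¹ := by
  constructor
  · exact fn_local_of_polefree P H hart hg
      (fun P' hP' => Fermat.Agent.H23.mem_of_ord_nonneg P' (by rw [hord P' hP']))
  · rw [← fn_red_inv H hg hr]
    exact fn_local_of_polefree P H hart _
      (fun P' hP' => Fermat.Agent.H23.mem_of_ord_nonneg P'
        (by rw [Place.ord_inv, hord P' hP', neg_zero]))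

/-! ### Generators -/

theorem fn_exists_gen (H : CompSoft A V red) (hpg : FnPG A P) {P' : Place Qb (FLb N)}
    (hP' : nmCentre A P' = nmCentre A P) : ∃ t : FLb N, FnGen A V red P P' t := by
  obtain ⟨t₀, h1, h2⟩ := hpg P' hP'
  have ht0 : t₀ ≠ 0 := by
    rintro rfl
    rw [Place.ord_zero] at h1
    exact zero_ne_one h1
  obtain ⟨c, u, hc0, hu, htu⟩ := H.norm t₀ ht0
  have hord : ∀ P'' : Place Qb (FLb N), P''.ord (u : FLb N) = P''.ord t₀ := by
    intro P''
    rw [htu, nb_ord_const_mul P'' hc0]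
  exact ⟨u, ⟨u.2, hu, by rw [hord]; exact h1,
    fun P'' hP'' hne => by rw [hord]; exact h2 P'' hP'' hne⟩⟩

variable {P}

theorem FnGen.ne_zero {P' : Place Qb (FLb N)} {t : FLb N} (ht : FnGen A V red P P' t) :
    t ≠ 0 := fn_ne_zero_of_red ht.mem ht.red_ne

/-- a generator has no pole on the disc -/
theorem FnGen.mem_place {P' : Place Qb (FLb N)} {t : FLb N} (ht : FnGen A V red P P' t)
    {P'' : Place Qb (FLb N)} (hP'' : nmCentre A P'' = nmCentre A P) :
    t ∈ P''.toValuationSubring := by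
  by_cases h : P'' = P'
  · rw [h]
    exact Fermat.Agent.H23.mem_of_ord_nonneg P' (by rw [ht.ord_self]; norm_num)
  · exact Fermat.Agent.H23.mem_of_ord_nonneg P'' (by rw [ht.ord_other P'' hP'' h])

/-- the inverse of a generator has no pole at the other places of the disc -/
theorem FnGen.inv_mem_place {P' : Place Qb (FLb N)} {t : FLb N}
    (ht : FnGen A V red P P' t) {P'' : Place Qb (FLb N)}
    (hP'' : nmCentre A P'' = nmCentre A P) (h : P'' ≠ P') :
    t⁻¹ ∈ P''.toValuationSubring :=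
  Fermat.Agent.H23.mem_of_ord_nonneg P''
    (by rw [Place.ord_inv, ht.ord_other P'' hP'' h, neg_zero])

variable (P)

/-- **the value of a generator at `P_a` at another place `P_b` of the disc lies in `𝔪_A`** -/
theorem fn_val_nonunit (H : CompSoft A V red) (hart : FnHart A V P)
    {Pa Pb : Place Qb (FLb N)} (hPa : nmCentre A Pa = nmCentre A P)
    (hPb : nmCentre A Pb = nmCentre A P) {t : FLb N} (ht : FnGen A V red P Pa t) {c : Qb}
    (hc : HasValue Pb t c) : c ∈ A.nonunits := by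
  obtain ⟨s, hsB, hsn, hstB⟩ := hart t ht.mem
    (fun P' hP' => (Fermat.Agent.H23.mem_iff_ord P').1 (ht.mem_place hP'))
  -- `s t` vanishes at `P_a`
  obtain ⟨da, hda, hdav⟩ := fn_value P H hPa hsB
  have h1 : HasValue Pa (s * t) (da * 0) :=
    nm_hasValue_mul Pa hdav (fn_hasValue_zero (by rw [ht.ord_self]))
  have h2 : s * t ∈ nmMax A Pa := ⟨da * 0, by rw [mul_zero]; exact fn_zero_mem_nonunits, h1⟩
  have h3 : s * t ∈ nmMax A Pb :=
    (fn_mem_nmMax_iff P H hPb hstB).2 ((fn_mem_nmMax_iff P H hPa hstB).1 h2)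
  -- `s` is a unit at `P_b`
  have h4 : s ∉ nmMax A Pb := fun h => hsn ((fn_mem_nmMax_iff P H hPb hsB).1 h)
  obtain ⟨db, hdb, hdbv⟩ := fn_value P H hPb hsB
  have h5 : db ∉ A.nonunits := fun h => h4 ((mem_nmMax_iff_of_value Pb hdbv).2 h)
  have h6 : db * c ∈ A.nonunits :=
    (mem_nmMax_iff_of_value Pb (nm_hasValue_mul Pb hdbv hc)).1 h3
  rw [ValuationSubring.mem_nonunits_iff] at h5 h6 ⊢
  have h7 : A.valuation db = 1 :=
    le_antisymm ((ValuationSubring.valuation_le_one_iff _ _).2 hdb) (not_lt.1 h5)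
  rw [map_mul, h7, one_mul] at h6
  exact h6

/-- **the quotient of the reductions of two generators at different places of the disc is
local** -/
theorem fn_quot (H : CompSoft A V red) (hart : FnHart A V P)
    {Pa Pb : Place Qb (FLb N)} (hPa : nmCentre A Pa = nmCentre A P)
    (hPb : nmCentre A Pb = nmCentre A P) (hne : Pa ≠ Pb) {ta tb : FLb N}
    (hta : FnGen A V red P Pa ta) (htb : FnGen A V red P Pb tb) :
    GenLocal A V red P (red ⟨ta, hta.mem⟩ * (red ⟨tb, htb.mem⟩)⁻¹) := by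
  -- the value `c` of `t_a` at `P_b`
  have hmem : nmv Pb ta ≤ 1 := (ValuationSubring.valuation_le_one_iff _ _).2 (hta.mem_place hPb)
  obtain ⟨c, hc⟩ := nm_exists_hasValue Pb (H.deg Pb) hmem
  have hcn : c ∈ A.nonunits := fn_val_nonunit P H hart hPa hPb hta hc
  have hcA : c ∈ A := ValuationSubring.nonunits_subset hcn
  have hcV : algebraMap Qb (FLb N) c ∈ V := H.const_mem c hcA
  have htbi : tb⁻¹ ∈ V := H.inv ⟨tb, htb.mem⟩ htb.red_ne
  have hsub : ta - algebraMap Qb (FLb N) c ∈ V := V.sub_mem hta.mem hcV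
  have hgV : (ta - algebraMap Qb (FLb N) c) * tb⁻¹ ∈ V := V.mul_mem hsub htbi
  have hred : red ⟨(ta - algebraMap Qb (FLb N) c) * tb⁻¹, hgV⟩ =
      red ⟨ta, hta.mem⟩ * (red ⟨tb, htb.mem⟩)⁻¹ := by
    have e : (⟨(ta - algebraMap Qb (FLb N) c) * tb⁻¹, hgV⟩ : V) =
        (⟨ta, hta.mem⟩ - ⟨algebraMap Qb (FLb N) c, hcV⟩) * ⟨tb⁻¹, htbi⟩ := rfl
    rw [e, map_mul, map_sub, H.red_const_nonunit hcn, sub_zero, fn_red_inv H htb.mem htb.red_ne]
  rw [← hred]
  refine fn_local_of_polefree P H hart hgV ?_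
  intro P' hP'
  by_cases hP'b : P' = Pb
  · rw [hP'b]
    rcases hc with h | h
    · rw [h, sub_self, zero_mul]
      exact Pb.toValuationSubring.zero_mem
    · have hne0 : ta - algebraMap Qb (FLb N) c ≠ 0 := by
        intro h0
        rw [h0, Place.ord_zero] at h
        exact absurd h (by norm_num)
      apply Fermat.Agent.H23.mem_of_ord_nonneg
      rw [Pb.ord_mul hne0 (inv_ne_zero htb.ne_zero), Place.ord_inv, htb.ord_self]
      omega
  · exact mul_mem (sub_mem (hta.mem_place hP') (P'.algebraMap_mem' c))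
      (htb.inv_mem_place hP' hP'b)

/-- **the reduction of a generator at a place of the disc is `unit · τ`** -/
theorem fn_gen_inG (H : CompSoft A V red) (hart : FnHart A V P) {t : FLb N}
    (ht : FnGen A V red P P t) {P₁ : Place Qb (FLb N)}
    (hP₁ : nmCentre A P₁ = nmCentre A P) {t₁ : FLb N} (ht₁ : FnGen A V red P P₁ t₁) :
    FnInG A V red P (red ⟨t, ht.mem⟩) (red ⟨t₁, ht₁.mem⟩) := by
  have hτ0 : red ⟨t, ht.mem⟩ ≠ 0 := ht.red_ne
  by_cases hP : P₁ = P
  · -- two generators at `P`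
    subst hP
    have hti : t⁻¹ ∈ V := H.inv ⟨t, ht.mem⟩ ht.red_ne
    have hgV : t₁ * t⁻¹ ∈ V := V.mul_mem ht₁.mem hti
    have hred : red ⟨t₁ * t⁻¹, hgV⟩ = red ⟨t₁, ht₁.mem⟩ * (red ⟨t, ht.mem⟩)⁻¹ := by
      have e : (⟨t₁ * t⁻¹, hgV⟩ : V) = ⟨t₁, ht₁.mem⟩ * ⟨t⁻¹, hti⟩ := rfl
      rw [e, map_mul, fn_red_inv H ht.mem ht.red_ne]
    have hr : red ⟨t₁ * t⁻¹, hgV⟩ ≠ 0 := by
      rw [hred]
      exact mul_ne_zero ht₁.red_ne (inv_ne_zero hτ0)
    have hord : ∀ P' : Place Qb (FLb N), nmCentre A P' = nmCentre A P₁ →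
        P'.ord (t₁ * t⁻¹) = 0 := by
      intro P' hP'
      rw [P'.ord_mul ht₁.ne_zero (inv_ne_zero ht.ne_zero), Place.ord_inv]
      by_cases h : P' = P₁
      · rw [h, ht₁.ord_self, ht.ord_self]
        norm_num
      · rw [ht₁.ord_other P' hP' h, ht.ord_other P' hP' h]
        norm_num
    obtain ⟨h1, h2⟩ := fn_unit P₁ H hart hgV hr hord
    rw [hred] at h1 h2
    refine ⟨1, _, h1, h2, ?_⟩
    rw [zpow_one, mul_assoc, inv_mul_cancel₀ hτ0, mul_one]
  · have h1 := fn_quot P H hart hP₁ rfl hP ht₁ ht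
    have h2 := fn_quot P H hart rfl hP₁ (Ne.symm hP) ht ht₁
    refine ⟨1, red ⟨t₁, ht₁.mem⟩ * (red ⟨t, ht.mem⟩)⁻¹, h1, ?_, ?_⟩
    · rw [mul_inv, inv_inv, mul_comm]
      exact h2
    · rw [zpow_one, mul_assoc, inv_mul_cancel₀ hτ0, mul_one]

/-! ### The induction -/

/-- **every nonzero element of `Fk` is `unit · τ ^ n`** -/
theorem fn_inG_red (H : CompSoft A V red) (hart : FnHart A V P) (hpg : FnPG A P)
    (hfin : ∀ u : FLb N, u ≠ 0 → {P' : Place Qb (FLb N) | P'.ord u ≠ 0}.Finite)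
    {t : FLb N} (ht : FnGen A V red P P t) :
    ∀ (n : ℕ) (u : FLb N) (hu : u ∈ V), red ⟨u, hu⟩ ≠ 0 →
      {P' : Place Qb (FLb N) | nmCentre A P' = nmCentre A P ∧ P'.ord u ≠ 0}.ncard = n →
      FnInG A V red P (red ⟨t, ht.mem⟩) (red ⟨u, hu⟩) := by
  have hτ0 : red ⟨t, ht.mem⟩ ≠ 0 := ht.red_ne
  intro n
  induction n with
  | zero =>
    intro u hu hr hcard
    have hu0 : u ≠ 0 := fn_ne_zero_of_red hu hr
    have hfinS : {P' : Place Qb (FLb N) |
        nmCentre A P' = nmCentre A P ∧ P'.ord u ≠ 0}.Finite :=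
      (hfin u hu0).subset (fun P' h => h.2)
    have hempty := (Set.ncard_eq_zero hfinS).1 hcard
    have hord : ∀ P' : Place Qb (FLb N), nmCentre A P' = nmCentre A P → P'.ord u = 0 := by
      intro P' hP'
      by_contra hne
      have hmem : P' ∈ {P' : Place Qb (FLb N) |
          nmCentre A P' = nmCentre A P ∧ P'.ord u ≠ 0} := ⟨hP', hne⟩
      rw [hempty] at hmem
      exact (Set.mem_empty_iff_false _).1 hmem
    obtain ⟨h1, h2⟩ := fn_unit P H hart hu hr hord
    exact ⟨0, _, h1, h2, by rw [zpow_zero, mul_one]⟩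
  | succ n ih =>
    intro u hu hr hcard
    have hu0 : u ≠ 0 := fn_ne_zero_of_red hu hr
    have hne : {P' : Place Qb (FLb N) |
        nmCentre A P' = nmCentre A P ∧ P'.ord u ≠ 0}.Nonempty :=
      Set.nonempty_of_ncard_ne_zero (by rw [hcard]; exact Nat.succ_ne_zero n)
    obtain ⟨P₁, hP₁, ha⟩ := hne
    obtain ⟨t₁, ht₁⟩ := fn_exists_gen P H hpg hP₁
    have ht₁i : t₁⁻¹ ∈ V := H.inv ⟨t₁, ht₁.mem⟩ ht₁.red_ne
    have hpow : t₁ ^ (-(P₁.ord u)) ∈ V :=
      Fermat.Agent.H91.ORD.na_zpow_mem V ht₁.mem ht₁i _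
    have hu₁ : u * t₁ ^ (-(P₁.ord u)) ∈ V := V.mul_mem hu hpow
    have hredpow : red ⟨t₁ ^ (-(P₁.ord u)), hpow⟩ = red ⟨t₁, ht₁.mem⟩ ^ (-(P₁.ord u)) :=
      Fermat.Agent.H91.ORD.na_map_zpow V red ht₁.mem ht₁i ht₁.ne_zero _ hpow
    have hred₁ : red ⟨u * t₁ ^ (-(P₁.ord u)), hu₁⟩ =
        red ⟨u, hu⟩ * red ⟨t₁, ht₁.mem⟩ ^ (-(P₁.ord u)) := by
      have e : (⟨u * t₁ ^ (-(P₁.ord u)), hu₁⟩ : V) = ⟨u, hu⟩ * ⟨t₁ ^ (-(P₁.ord u)), hpow⟩ :=
        rfl
      rw [e, map_mul, hredpow]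
    have hr₁ : red ⟨u * t₁ ^ (-(P₁.ord u)), hu₁⟩ ≠ 0 := by
      rw [hred₁]
      exact mul_ne_zero hr (zpow_ne_zero _ ht₁.red_ne)
    have hordmul : ∀ P' : Place Qb (FLb N),
        P'.ord (u * t₁ ^ (-(P₁.ord u))) = P'.ord u + (-(P₁.ord u)) * P'.ord t₁ := by
      intro P'
      rw [P'.ord_mul hu0 (zpow_ne_zero _ ht₁.ne_zero), Place.ord_zpow]
    have hS : {P' : Place Qb (FLb N) |
          nmCentre A P' = nmCentre A P ∧ P'.ord (u * t₁ ^ (-(P₁.ord u))) ≠ 0} =
        {P' : Place Qb (FLb N) | nmCentre A P' = nmCentre A P ∧ P'.ord u ≠ 0} \ {P₁} := by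
      ext P'
      simp only [Set.mem_ofPred_eq, Set.mem_sdiff, Set.mem_singleton_iff]
      constructor
      · rintro ⟨h1, h2⟩
        by_cases hP : P' = P₁
        · exfalso
          apply h2
          rw [hordmul, hP, ht₁.ord_self]
          ring
        · rw [hordmul, ht₁.ord_other P' h1 hP, mul_zero, add_zero] at h2
          exact ⟨⟨h1, h2⟩, hP⟩
      · rintro ⟨⟨h1, h2⟩, hP⟩
        refine ⟨h1, ?_⟩
        rw [hordmul, ht₁.ord_other P' h1 hP, mul_zero, add_zero]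
        exact h2
    have hcard₁ : {P' : Place Qb (FLb N) |
        nmCentre A P' = nmCentre A P ∧ P'.ord (u * t₁ ^ (-(P₁.ord u))) ≠ 0}.ncard = n := by
      rw [hS, Set.ncard_sdiff_singleton_of_mem (show P₁ ∈ {P' : Place Qb (FLb N) |
        nmCentre A P' = nmCentre A P ∧ P'.ord u ≠ 0} from ⟨hP₁, ha⟩), hcard]
      omega
    have hI := ih _ hu₁ hr₁ hcard₁
    have hG₁ := fn_gen_inG P H hart ht hP₁ ht₁
    have e : red ⟨u, hu⟩ = red ⟨u * t₁ ^ (-(P₁.ord u)), hu₁⟩ *
        red ⟨t₁, ht₁.mem⟩ ^ (P₁.ord u) := by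
      rw [hred₁, mul_assoc, ← zpow_add₀ ht₁.red_ne, neg_add_cancel, zpow_zero, mul_one]
    rw [e]
    exact fn_inG_mul P H hτ0 hI (fn_inG_zpow P H hτ0 hG₁ _)

/-! ### The factorisation -/

/-- **FACTORISATION at a centre lying on ONE component** (generic component). -/
theorem genFactor_of_hart_pg (H : CompSoft A V red)
    (hideal : ∀ f ∈ nmChart N A (nmY A P), ∀ h : f ∈ V, red ⟨f, h⟩ = 0 → f ∈ nmMax A P)
    (hsurj : Function.Surjective red)
    (hfin : ∀ u : FLb N, u ≠ 0 → {P' : Place Qb (FLb N) | P'.ord u ≠ 0}.Finite)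
    (hart : FnHart A V P) (hpg : FnPG A P) : GenFactor A V red P := by
  obtain ⟨t, ht⟩ := fn_exists_gen P H hpg (rfl : nmCentre A P = nmCentre A P)
  refine ⟨red ⟨t, ht.mem⟩, ?_, ?_, ?_⟩
  · exact fn_local_of_polefree P H hart ht.mem (fun P' hP' => ht.mem_place hP')
  · -- `τ⁻¹ ∉ O` : `s t ∈ 𝔪` for some `s ∈ B̄ ∖ 𝔪`
    intro hτi
    obtain ⟨s, hsB, hsn, hstB⟩ := hart t ht.mem
      (fun P' hP' => (Fermat.Agent.H23.mem_iff_ord P').1 (ht.mem_place hP'))
    have hsV : s ∈ V := H.chart_le P hsB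
    have hstV : s * t ∈ V := V.mul_mem hsV ht.mem
    obtain ⟨d, hd, hdv⟩ := nmChart_value P (H.deg P) hsB
    have h1 : HasValue P (s * t) (d * 0) :=
      nm_hasValue_mul P hdv (fn_hasValue_zero (by rw [ht.ord_self]))
    have hcen : s * t ∈ nmCentre A P :=
      ⟨hstB, d * 0, by rw [mul_zero]; exact fn_zero_mem_nonunits, h1⟩
    have hreds : red ⟨s, hsV⟩ ≠ 0 := fun h0 => hsn (hideal s hsB hsV h0)
    have hredst : red ⟨s * t, hstV⟩ = red ⟨s, hsV⟩ * red ⟨t, ht.mem⟩ := by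
      rw [← map_mul]
      rfl
    have hne : red ⟨s * t, hstV⟩ ≠ 0 := by
      rw [hredst]
      exact mul_ne_zero hreds ht.red_ne
    apply genLocal_centre_not_unit P H hideal hcen hstV hne
    rw [hredst, mul_inv]
    refine genLocal_mul P H ?_ hτi
    refine ⟨1, s, V.one_mem, hsV, (nmChart N A _).one_mem, hsB, hsn, ?_⟩
    have e1 : (⟨1, V.one_mem⟩ : V) = 1 := rfl
    rw [e1, map_one, inv_mul_cancel₀ hreds]
  · intro z hz
    obtain ⟨u, rfl⟩ := hsurj z
    exact fn_inG_red P H hart hpg hfin ht _ u.1 u.2 hz rfl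

end Gen

/-! ### The components of `X₀(M p)` -/

section Inst

variable (M p : ℕ) [NeZero M] [NeZero p]

/-- **[DVR] (F3), component `∞`** : the factorisation at the centres lying on `C_∞` only
(in particular at the cusps), from [HART] and [PG]. -/
theorem nmFactorOo_nonNode (hHart : NmHartogsStatement M p) (hPG : NmPlaceGenStatement M p)
    (hSoft : NmSoftStatement M p) :
    ∀ (A : ValuationSubring Qb) (h : NmSetup M p A) (P : Place Qb (FLb (M * p))),
      NmIdealOo M p A P → ¬ NmIdealZero M p h.cop A P →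
      GenFactor A (gaussOBar (M * p) A) (nmRedOo (M * p) A) P := by
  intro A h P hIoo hI0
  have H := nmBase_of_soft hSoft h
  obtain ⟨-, -, -, -, -, -, -, -, s9, -, -⟩ := hSoft A h
  refine genFactor_of_hart_pg P H.oo hIoo s9
    (fun u hu => Fermat.Agent.H70.SS.ss_finite_support (M * p) u hu) ?_ ?_
  · intro g hg hpf
    exact hHart A h P g (fun _ => hg) (fun h0 => absurd h0 hI0) hpf
  · intro P' hP'
    obtain ⟨t, h1, h2⟩ := hPG A h P'
    exact ⟨t, h1, fun P'' hP'' hne => h2 P'' (hP''.trans hP'.symm) hne⟩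

/-- **[DVR] (F3), component `0`** : the factorisation at the centres lying on `C_0` only. -/
theorem nmFactorZero_nonNode (hHart : NmHartogsStatement M p) (hPG : NmPlaceGenStatement M p)
    (hSoft : NmSoftStatement M p) :
    ∀ (A : ValuationSubring Qb) (h : NmSetup M p A) (P : Place Qb (FLb (M * p))),
      NmIdealZero M p h.cop A P → ¬ NmIdealOo M p A P →
      GenFactor A (nmV0 M p h.cop A) (nmRed0 M p h.cop A) P := by
  intro A h P hI0 hIoo
  have H := nmBase_of_soft hSoft h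
  obtain ⟨-, -, -, -, -, -, -, -, -, s10, -⟩ := hSoft A h
  refine genFactor_of_hart_pg P H.zero hI0 s10
    (fun u hu => Fermat.Agent.H70.SS.ss_finite_support (M * p) u hu) ?_ ?_
  · intro g hg hpf
    exact hHart A h P g (fun h0 => absurd h0 hIoo) (fun _ => hg) hpf
  · intro P' hP'
    obtain ⟨t, h1, h2⟩ := hPG A h P'
    exact ⟨t, h1, fun P'' hP'' hne => h2 P'' (hP''.trans hP'.symm) hne⟩

/-- **the glue** : [DVR]-factorisation on `C_∞` from the factorisation at the NODES and (F3). -/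
theorem nmFactorOo_of_nodes (hHart : NmHartogsStatement M p) (hPG : NmPlaceGenStatement M p)
    (hSoft : NmSoftStatement M p)
    (hNode : ∀ (A : ValuationSubring Qb) (h : NmSetup M p A) (P : Place Qb (FLb (M * p))),
      NmIdealOo M p A P → NmIdealZero M p h.cop A P →
      GenFactor A (gaussOBar (M * p) A) (nmRedOo (M * p) A) P) :
    NmFactorOoStatement M p := by
  intro A h P hIoo
  by_cases hI0 : NmIdealZero M p h.cop A P
  · exact hNode A h P hIoo hI0
  · exact nmFactorOo_nonNode M p hHart hPG hSoft A h P hIoo hI0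

end Inst

end Fermat.Agent.H76.ORD

end
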